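import Fermat.Agent.Pic.Hilb.Basic

/-!
# The ideal of an image as a base change

The ideal of the image of a quotient is the base change of its ideal, compatibly with the
inclusions into the ambient algebras.
-/

noncomputable section

open TensorProduct

namespace Fermat.Agent.Pic.Hilb

universe u

variable {k : Type u} [Field k] {B : Type u} [CommRing B] [Algebra k B]
  {ι : Type u} [Fintype ι] [DecidableEq ι] {e : ι → B}
  {R : Type u} [CommRing R] [Algebra k R]

variable (R' : Type u) [CommRing R'] [Algebra k R'] [Algebra R R'] [IsScalarTower k R R']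

/-- The ideal of an image is the base change of the ideal. -/
theorem Pt.exists_idealEquiv (x : Pt k e R) :
    ∃ E : R' ⊗[R] x.ideal ≃ₗ[R'] (x.map (IsScalarTower.toAlgHom k R R')).ideal,
      ∀ i : x.ideal, (E (1 ⊗ₜ i)).1 = scalarMap (IsScalarTower.toAlgHom k R R') i.1 := by
  let f := IsScalarTower.toAlgHom k R R'
  let c : R' ⊗[R] (R ⊗[k] B) ≃ₗ[R'] R' ⊗[k] B :=
    AlgebraTensorModule.cancelBaseChange k R R' R' B
  let incl : x.ideal →ₗ[R] R ⊗[k] B := (Submodule.subtype x.ideal).restrictScalars R
  let ρ : R ⊗[k] B →ₗ[R] x.ideal :=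
    (LinearMap.id - Pt.σ e R ∘ₗ x.πR).codRestrict (x.ideal.restrictScalars R)
      fun t => x.sub_σ_mem_ideal t
  have hρ : ∀ i : x.ideal, ρ i.1 = i := fun i => Subtype.ext <| by
    show i.1 - Pt.σ e R (x.πR i.1) = i.1
    rw [x.mem_ideal.mp i.2, map_zero, sub_zero]
  have hc1 : ∀ (a : R') (t : R ⊗[k] B), c (a ⊗ₜ t) = a • scalarMap f t := fun a t => by
    induction t using TensorProduct.induction_on with
    | zero => simp
    | tmul r b =>
      rw [AlgebraTensorModule.cancelBaseChange_tmul, Algebra.TensorProduct.map_tmul, smul_tmul',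
        AlgHom.id_apply, smul_eq_mul, Algebra.smul_def, mul_comm]
      rfl
    | add u v hu hv => rw [tmul_add, map_add, map_add, hu, hv, smul_add]
  let Φ₀ : R' ⊗[R] x.ideal →ₗ[R'] R' ⊗[k] B := c.toLinearMap ∘ₗ incl.baseChange R'
  let Φ : R' ⊗[R] x.ideal →ₗ[R'] (x.map f).ideal :=
    Φ₀.codRestrict ((x.map f).ideal.restrictScalars R') fun z => by
      show Φ₀ z ∈ (x.map f).ideal
      induction z using TensorProduct.induction_on with
      | zero => rw [map_zero]; exact zero_mem _
      | tmul a i =>
        show c (a ⊗ₜ i.1) ∈ (x.map f).ideal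
        rw [hc1, Algebra.smul_def]
        exact Ideal.mul_mem_left _ _ (x.scalarMap_mem_ideal f i.2)
      | add u v hu hv => rw [map_add]; exact add_mem hu hv
  have hid : ∀ t : R' ⊗[k] B,
      Φ₀ (ρ.baseChange R' (c.symm t)) = t - Pt.σ e R' ((x.map f).πR t) := by
    intro t
    induction t using TensorProduct.induction_on with
    | zero => simp
    | tmul a b =>
      rw [AlgebraTensorModule.cancelBaseChange_symm_tmul, LinearMap.baseChange_tmul]
      show c (a ⊗ₜ (((1 : R) ⊗ₜ[k] b) - Pt.σ e R (x.πR ((1 : R) ⊗ₜ[k] b)))) = _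
      rw [hc1, map_sub, smul_sub, scalarMap_σ]
      congr 1
      · rw [Algebra.TensorProduct.map_tmul, smul_tmul', smul_eq_mul, map_one, mul_one]
        rfl
      · rw [← map_smul]
        congr 1
        funext i
        simp [f]
    | add u v hu hv => rw [map_add, map_add, map_add, hu, hv, map_add, map_add, add_sub_add_comm]
  refine ⟨LinearEquiv.ofBijective Φ ⟨?_, fun t => ?_⟩, fun i => ?_⟩
  · refine Function.Injective.of_comp (f := Subtype.val) ?_
    refine Function.LeftInverse.injective (g := fun w => ρ.baseChange R' (c.symm w)) fun z => ?_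
    show ρ.baseChange R' (c.symm (c (incl.baseChange R' z))) = z
    rw [c.symm_apply_apply]
    induction z using TensorProduct.induction_on with
    | zero => simp
    | tmul a i => exact congrArg (a ⊗ₜ[R] ·) (hρ i)
    | add u v hu hv => rw [map_add, map_add, hu, hv]
  · refine ⟨ρ.baseChange R' (c.symm t.1), Subtype.ext ?_⟩
    show Φ₀ _ = t.1
    rw [hid, (x.map f).mem_ideal.mp t.2, map_zero, sub_zero]
  · show c ((1 : R') ⊗ₜ i.1) = _
    rw [hc1, one_smul]

end Fermat.Agent.Pic.Hilb

end
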