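import Fermat.Agent.Pic.Hilb.Basic

/-!
# Lifting quotients over nilpotent thickenings

If the ideal of a quotient is a finitely generated projective module, the quotient lifts along any
surjection with nilpotent kernel: lift the idempotent cutting out the ideal, then its generators.
-/

noncomputable section

open TensorProduct

namespace Fermat.Agent.Pic.Hilb

universe u

/-- A linear map to a projective module that is bijective modulo a nilpotent ideal is bijective. -/
theorem bijective_of_nilpotent {R D T : Type u} [CommRing R] [AddCommGroup D] [Module R D]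
    [AddCommGroup T] [Module R T] [Module.Projective R T] {J : Ideal R} {m : ℕ} (hJ : J ^ m = ⊥)
    (φ : D →ₗ[R] T) (hsurj : LinearMap.range φ ⊔ J • (⊤ : Submodule R T) = ⊤)
    (hker : LinearMap.ker φ ≤ J • (⊤ : Submodule R D)) : Function.Bijective φ := by
  have hstep : ∀ i, LinearMap.range φ ⊔ J ^ i • (⊤ : Submodule R T) = ⊤ := by
    intro i
    induction i with
    | zero => simp
    | succ i ih =>
      refine eq_top_iff.mpr (ih.ge.trans (sup_le le_sup_left ?_))
      calc J ^ i • (⊤ : Submodule R T) ≤ J ^ i • (LinearMap.range φ ⊔ J • ⊤) := by rw [hsurj]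
        _ = J ^ i • LinearMap.range φ ⊔ J ^ (i + 1) • ⊤ := by
          rw [Submodule.smul_sup, ← mul_smul, ← pow_succ]
        _ ≤ _ := sup_le (le_sup_of_le_left Submodule.smul_le_right) le_sup_right
  have hs : Function.Surjective φ := by
    rw [← LinearMap.range_eq_top]
    simpa [hJ] using hstep m
  obtain ⟨s, hsφ⟩ := Module.projective_lifting_property φ LinearMap.id hs
  refine ⟨LinearMap.ker_eq_bot.mp ?_, hs⟩
  let π : D →ₗ[R] D := LinearMap.id - s ∘ₗ φ
  have hπ : ∀ d, π d ∈ LinearMap.ker φ := fun d => by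
    rw [LinearMap.mem_ker, LinearMap.sub_apply, map_sub]
    exact sub_eq_zero.mpr (LinearMap.congr_fun hsφ (φ d)).symm
  have hle : LinearMap.ker φ ≤ J • LinearMap.ker φ := by
    intro x hx
    have e : π x = x := by simp [π, LinearMap.mem_ker.mp hx]
    rw [← e]
    have h := Submodule.mem_map_of_mem (f := π) (hker hx)
    rw [Submodule.map_smul''] at h
    exact Submodule.smul_mono le_rfl (by rintro _ ⟨d, -, rfl⟩; exact hπ d) h
  have hpow : ∀ i, LinearMap.ker φ ≤ J ^ i • LinearMap.ker φ := by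
    intro i
    induction i with
    | zero => simp
    | succ i ih =>
      refine ih.trans ?_
      rw [pow_succ, mul_smul]
      exact Submodule.smul_mono le_rfl hle
  simpa [hJ] using hpow m

theorem mem_smul_top_pi {R M : Type u} {ι : Type*} [CommRing R] [AddCommGroup M] [Module R M]
    [Finite ι]
    {J : Ideal R} {v : ι → M} (hv : ∀ i, v i ∈ J • (⊤ : Submodule R M)) :
    v ∈ J • (⊤ : Submodule R (ι → M)) := by
  classical
  have := Fintype.ofFinite ι
  rw [← Finset.univ_sum_single v]
  refine Submodule.sum_mem _ fun i _ => ?_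
  have h := Submodule.mem_map_of_mem (f := LinearMap.single R (fun _ : ι => M) i) (hv i)
  rw [Submodule.map_smul''] at h
  exact Submodule.smul_mono le_rfl le_top h

theorem mem_smul_top_prod {R M N : Type u} [CommRing R] [AddCommGroup M] [Module R M]
    [AddCommGroup N] [Module R N] {J : Ideal R} {a : M} {b : N}
    (ha : a ∈ J • (⊤ : Submodule R M)) (hb : b ∈ J • (⊤ : Submodule R N)) :
    (a, b) ∈ J • (⊤ : Submodule R (M × N)) := by
  have h1 := Submodule.mem_map_of_mem (f := LinearMap.inl R M N) ha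
  have h2 := Submodule.mem_map_of_mem (f := LinearMap.inr R M N) hb
  rw [Submodule.map_smul''] at h1 h2
  have := add_mem (Submodule.smul_mono le_rfl le_top h1) (Submodule.smul_mono le_rfl le_top h2)
  simpa using this

theorem isNilpotent_of_forall_apply {S : Type u} {n : Type*} [CommRing S] [Fintype n]
    [DecidableEq n]
    (M : Matrix n n S) (h : ∀ i j, IsNilpotent (M i j)) : IsNilpotent M := by
  classical
  let a : Ideal S := Ideal.span (Finset.univ.image fun q : n × n => M q.1 q.2 : Finset S)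
  have hle : a ≤ nilradical S := by
    rw [Ideal.span_le]
    intro x hx
    obtain ⟨q, -, rfl⟩ := Finset.mem_image.mp hx
    exact h q.1 q.2
  obtain ⟨l, hl⟩ := Ideal.exists_pow_le_of_le_radical_of_fg hle ⟨_, rfl⟩
  refine ⟨l, Matrix.ext fun i j => ?_⟩
  suffices ∀ l i j, (M ^ l) i j ∈ a ^ l from (Submodule.mem_bot S).mp (hl (this l i j))
  intro l
  induction l with
  | zero => simp
  | succ l ih =>
    intro i j
    rw [pow_succ, pow_succ, Matrix.mul_apply]
    exact Ideal.sum_mem _ fun q _ =>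
      Ideal.mul_mem_mul (ih i q) (Ideal.subset_span (Finset.mem_image.mpr ⟨(q, j),
        Finset.mem_univ _, rfl⟩))

variable {k : Type u} [Field k] {B : Type u} [CommRing B] [Algebra k B]
  {R R0 : Type u} [CommRing R] [Algebra k R] [CommRing R0] [Algebra k R0] (f : R →ₐ[k] R0)

theorem scalarMap_surjective (hf : Function.Surjective f) :
    Function.Surjective (scalarMap (B := B) f) :=
  TensorProduct.map_surjective (R := k) (g := f.toLinearMap) (g' := (LinearMap.id : B →ₗ[k] B)) hf
    Function.surjective_id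

theorem mem_smul_top_of_scalarMap_eq_zero (hf : Function.Surjective f) {t : R ⊗[k] B}
    (ht : scalarMap f t = 0) : t ∈ RingHom.ker f • (⊤ : Submodule R (R ⊗[k] B)) := by
  have h1 : Function.Exact (LinearMap.ker f.toLinearMap).subtype f.toLinearMap :=
    f.toLinearMap.exact_subtype_ker_map
  have hex := rTensor_exact B h1 hf
  have ht' : f.toLinearMap.rTensor B t = 0 := by
    rw [← ht]; rfl
  obtain ⟨w, rfl⟩ := (hex t).mp ht'
  clear ht ht'
  induction w using TensorProduct.induction_on with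
  | zero => rw [map_zero]; exact zero_mem _
  | tmul j b =>
    rw [LinearMap.rTensor_tmul, show ((LinearMap.ker f.toLinearMap).subtype j) ⊗ₜ[k] b =
      (j : R) • ((1 : R) ⊗ₜ[k] b) by rw [smul_tmul', smul_eq_mul, mul_one]; rfl]
    exact Submodule.smul_mem_smul j.2 Submodule.mem_top
  | add x y hx hy => rw [map_add]; exact add_mem hx hy

theorem isNilpotent_of_scalarMap_eq_zero (hf : Function.Surjective f) {m : ℕ}
    (hJ : RingHom.ker f ^ m = ⊥) {t : R ⊗[k] B} (ht : scalarMap f t = 0) : IsNilpotent t := by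
  have h : t ∈ nilradical (R ⊗[k] B) := by
    refine Submodule.smul_induction_on (mem_smul_top_of_scalarMap_eq_zero f hf ht)
      (fun r hr s _ => ?_) fun x y hx hy => add_mem hx hy
    rw [Algebra.smul_def]
    refine Ideal.mul_mem_right _ _ ⟨m, ?_⟩
    have hm : r ^ m = 0 := (Submodule.mem_bot R).mp (hJ ▸ Ideal.pow_mem_pow hr m)
    rw [← map_pow, hm, map_zero]
    exact zero_mem _
  exact h

/-- An idempotent endomorphism of a finite free module lifts along a nilpotent thickening to an
idempotent matrix. -/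
theorem exists_idempotent_lift (hf : Function.Surjective f) {m : ℕ}
    (hJ : RingHom.ker f ^ m = ⊥) {n : ℕ}
    {P : (Fin n → R0 ⊗[k] B) →ₗ[R0 ⊗[k] B] (Fin n → R0 ⊗[k] B)} (hP : P ∘ₗ P = P) :
    ∃ E : Matrix (Fin n) (Fin n) (R ⊗[k] B), IsIdempotentElem E ∧
      ∀ y, scalarMap f ∘ E.mulVec y = P (scalarMap f ∘ y) := by
  let F : R ⊗[k] B →ₐ[k] R0 ⊗[k] B := scalarMap f
  have hF : Function.Surjective F := scalarMap_surjective f hf
  have hE₀ : IsIdempotentElem (LinearMap.toMatrix' P) := by
    show LinearMap.toMatrix' P * LinearMap.toMatrix' P = _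
    rw [← LinearMap.toMatrix'_comp, hP]
  let FM : Matrix (Fin n) (Fin n) (R ⊗[k] B) →+* Matrix (Fin n) (Fin n) (R0 ⊗[k] B) :=
    F.toRingHom.mapMatrix
  have hnil : ∀ M ∈ RingHom.ker FM, IsNilpotent M := fun M hM =>
    isNilpotent_of_forall_apply M fun i j =>
      isNilpotent_of_scalarMap_eq_zero f hf hJ (t := M i j) (congrFun (congrFun hM i) j)
  obtain ⟨E, hE, hFE⟩ := exists_isIdempotentElem_eq_of_ker_isNilpotent FM hnil
    (LinearMap.toMatrix' P) ⟨Matrix.of fun i j => (hF (LinearMap.toMatrix' P i j)).choose,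
      Matrix.ext fun i j => (hF (LinearMap.toMatrix' P i j)).choose_spec⟩ hE₀
  refine ⟨E, hE, fun y => ?_⟩
  rw [← LinearMap.toMatrix'_mulVec P]
  funext i
  show F (∑ j, E i j * y j) = ∑ j, LinearMap.toMatrix' P i j * F (y j)
  rw [map_sum, ← hFE]
  exact Finset.sum_congr rfl fun j _ => map_mul F _ _

variable {ι : Type u} [Fintype ι] [DecidableEq ι] {e : ι → B}

/-- Quotients whose ideal is projective lift along nilpotent thickenings. -/
theorem Pt.exists_lift (hf : Function.Surjective f) {m : ℕ} (hJ : RingHom.ker f ^ m = ⊥)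
    (x₀ : Pt k e R0) [Module.Finite (R0 ⊗[k] B) x₀.ideal]
    [Module.Projective (R0 ⊗[k] B) x₀.ideal] : ∃ x : Pt k e R, x.map f = x₀ := by
  classical
  obtain ⟨n, p, g, -, -, hpg⟩ := Module.Finite.exists_comp_eq_id_of_projective (R0 ⊗[k] B) x₀.ideal
  let F : R ⊗[k] B →ₐ[k] R0 ⊗[k] B := scalarMap f
  have hF : Function.Surjective F := scalarMap_surjective f hf
  obtain ⟨E, hE, hFmul⟩ := exists_idempotent_lift f hf hJ (P := g ∘ₗ p)
    (by rw [LinearMap.comp_assoc, ← LinearMap.comp_assoc p g p, hpg, LinearMap.id_comp])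
  choose w hw using fun j : Fin n => hF (p (Pi.single j 1) : x₀.ideal).1
  let v : (Fin n → R ⊗[k] B) →ₗ[R ⊗[k] B] R ⊗[k] B :=
    Fintype.linearCombination (R ⊗[k] B) w ∘ₗ Matrix.toLin' E
  have hp : ∀ z, p z = ∑ j, z j • p (Pi.single j 1) := fun z => by
    conv_lhs => rw [← Finset.univ_sum_single z]
    rw [map_sum]
    refine Finset.sum_congr rfl fun j _ => ?_
    rw [← map_smul, ← Pi.single_smul', smul_eq_mul, mul_one]
  have hFv : ∀ y, F (v y) = (p (F ∘ y) : x₀.ideal).1 := fun y => by
    have h1 : p (g (p (F ∘ y))) = p (F ∘ y) := LinearMap.congr_fun hpg _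
    rw [← h1, ← LinearMap.comp_apply g p, ← hFmul, hp]
    show F (∑ j, (E.mulVec y) j * w j) = _
    rw [map_sum, Submodule.coe_sum]
    refine Finset.sum_congr rfl fun j _ => ?_
    rw [map_mul, hw, Submodule.coe_smul]
    rfl
  let Er : (Fin n → R ⊗[k] B) →ₗ[R] (Fin n → R ⊗[k] B) := (Matrix.toLin' E).restrictScalars R
  let π : (Fin n → R ⊗[k] B) →ₗ[R] LinearMap.ker Er :=
    (LinearMap.id - Er).codRestrict _ fun y => by
      show E.mulVec (y - E.mulVec y) = 0
      rw [Matrix.mulVec_sub, Matrix.mulVec_mulVec, hE.eq, sub_self]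
  have : Module.Projective R (LinearMap.ker Er) :=
    Module.Projective.of_split (LinearMap.ker Er).subtype π (LinearMap.ext fun y => Subtype.ext (by
      show y.1 - Er y.1 = y.1
      rw [LinearMap.mem_ker.mp y.2, sub_zero]))
  let Φ : (ι → R) × (Fin n → R ⊗[k] B) →ₗ[R] (R ⊗[k] B) × LinearMap.ker Er :=
    (Pt.σ e R ∘ₗ LinearMap.fst R _ _ + (v.restrictScalars R) ∘ₗ LinearMap.snd R _ _).prod
      (π ∘ₗ LinearMap.snd R _ _)
  have hsmul : ∀ t, F t = 0 → t ∈ RingHom.ker f • (⊤ : Submodule R (R ⊗[k] B)) := fun t =>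
    mem_smul_top_of_scalarMap_eq_zero f hf
  have hΦ : Function.Bijective Φ := by
    refine bijective_of_nilpotent hJ Φ (eq_top_iff.mpr ?_) ?_
    · rintro ⟨t, ⟨y, hy⟩⟩ -
      have hEy : E.mulVec y = 0 := hy
      obtain ⟨a, ha⟩ : ∃ a : ι → R, f ∘ a = x₀.πR (F t) :=
        ⟨fun i => (hf _).choose, funext fun i => (hf (x₀.πR (F t) i)).choose_spec⟩
      let i₀ : x₀.ideal := ⟨_, x₀.sub_σ_mem_ideal (F t)⟩
      choose y' hy' using fun j => hF (g i₀ j)
      let z := E.mulVec y' + y
      have hsplit : ((t, ⟨y, hy⟩) : (R ⊗[k] B) × LinearMap.ker Er) =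
          Φ (a, z) + (t - (Φ (a, z)).1, ⟨y, hy⟩ - (Φ (a, z)).2) := by
        simp [Prod.ext_iff]
      rw [hsplit]
      refine add_mem (Submodule.mem_sup_left ⟨_, rfl⟩) (Submodule.mem_sup_right ?_)
      have hz : E.mulVec z = E.mulVec y' := by
        show E.mulVec (E.mulVec y' + y) = _
        rw [Matrix.mulVec_add, Matrix.mulVec_mulVec, hE.eq, hEy, add_zero]
      have hFy' : F ∘ y' = g i₀ := funext hy'
      refine mem_smul_top_prod (hsmul _ ?_) ?_
      · show F (t - (Pt.σ e R a + v z)) = 0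
        have hvz : v z = v (E.mulVec y') := by
          show Fintype.linearCombination _ w (E.mulVec z) =
            Fintype.linearCombination _ w (E.mulVec (E.mulVec y'))
          rw [hz, Matrix.mulVec_mulVec, hE.eq]
        rw [hvz, map_sub, map_add, scalarMap_σ, ha, hFv, hFmul, LinearMap.comp_apply, hFy']
        rw [show p (g (p (g i₀))) = i₀ by
          rw [← LinearMap.comp_apply p g, hpg]; exact LinearMap.congr_fun hpg i₀]
        show F t - (Pt.σ e R0 (x₀.πR (F t)) + (F t - Pt.σ e R0 (x₀.πR (F t)))) = 0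
        abel
      · rw [show (⟨y, hy⟩ : LinearMap.ker Er) - (Φ (a, z)).2 = 0 from Subtype.ext (by
          show y - (E.mulVec y' + y - E.mulVec (E.mulVec y' + y)) = 0
          rw [show E.mulVec (E.mulVec y' + y) = E.mulVec y' from hz]
          abel)]
        exact zero_mem _
    · rintro ⟨a, z⟩ haz
      rw [LinearMap.mem_ker] at haz
      have h1 : Pt.σ e R a + v z = 0 := congrArg Prod.fst haz
      have h2 : z = E.mulVec z :=
        sub_eq_zero.mp (congrArg (fun q => q.2.1) haz)
      have h1' := congrArg F h1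
      rw [map_add, map_zero, scalarMap_σ, hFv] at h1'
      have ha : f ∘ a = 0 := by
        have h := congrArg x₀.πR h1'
        rwa [map_add, x₀.πR_σ, x₀.mem_ideal.mp (p (F ∘ z)).2, add_zero, map_zero] at h
      rw [ha, map_zero, zero_add] at h1'
      have hz : F ∘ z = 0 := by
        have h := hFmul z
        rw [← h2, LinearMap.comp_apply, (Subtype.ext h1' : p (F ∘ z) = 0), map_zero] at h
        exact h
      refine mem_smul_top_prod (mem_smul_top_pi fun i => ?_)
        (mem_smul_top_pi fun j => hsmul _ (congrFun hz j))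
      rw [Ideal.smul_top_eq_map]
      simpa using congrFun ha i
  let I : Ideal (R ⊗[k] B) := LinearMap.range v
  have hI : Function.Bijective ((Submodule.restrictScalars R I).mkQ ∘ₗ Pt.σ e R) := by
    refine ⟨(injective_iff_map_eq_zero _).mpr fun a ha => ?_, fun q => ?_⟩
    · rw [LinearMap.comp_apply, Submodule.mkQ_apply, Submodule.Quotient.mk_eq_zero] at ha
      obtain ⟨y, hy⟩ := ha
      have hv : v (E.mulVec y) = v y := by
        show Fintype.linearCombination _ w (E.mulVec (E.mulVec y)) = _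
        rw [Matrix.mulVec_mulVec, hE.eq]
        rfl
      have h0 : Φ (a, -(E.mulVec y)) = Φ (0, 0) := by
        refine Prod.ext ?_ (Subtype.ext ?_)
        · show Pt.σ e R a + v (-(E.mulVec y)) = Pt.σ e R 0 + v 0
          rw [map_neg, hv, hy, add_neg_cancel, map_zero, map_zero, add_zero]
        · show -(E.mulVec y) - E.mulVec (-(E.mulVec y)) = (0 : Fin n → R ⊗[k] B) - E.mulVec 0
          rw [Matrix.mulVec_neg, Matrix.mulVec_mulVec, hE.eq, sub_self, Matrix.mulVec_zero,
              sub_self]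
      exact congrArg Prod.fst (hΦ.1 h0)
    · obtain ⟨t, rfl⟩ := Submodule.mkQ_surjective _ q
      obtain ⟨⟨a, y⟩, hay⟩ := hΦ.2 (t, 0)
      refine ⟨a, (Submodule.Quotient.eq _).mpr ⟨-y, ?_⟩⟩
      have h : Pt.σ e R a + v y = t := congrArg Prod.fst hay
      rw [map_neg, ← h]
      abel
  refine ⟨Pt.ofIdeal e I hI, Pt.eq_of_ideal_le (le_of_eq ?_)⟩
  rw [Pt.ideal_map, Pt.ideal_ofIdeal]
  refine le_antisymm (Ideal.map_le_iff_le_comap.mpr ?_) fun s hs => ?_
  · rintro _ ⟨y, rfl⟩
    show F (v y) ∈ x₀.ideal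
    rw [hFv]
    exact (p (F ∘ y)).2
  · choose y hy using fun j => hF (g ⟨s, hs⟩ j)
    have h : F (v y) = s := by
      rw [hFv, show F ∘ y = g ⟨s, hs⟩ from funext hy, ← LinearMap.comp_apply p g, hpg]
      rfl
    rw [← h]
    exact Ideal.mem_map_of_mem _ ⟨y, rfl⟩

/-- If all quotients have projective ideals the space of quotients is smooth. -/
theorem formallySmooth_of_projective
    (h : ∀ (R : Type u) [CommRing R] [Algebra k R] (x : Pt k e R),
      Module.Finite (R ⊗[k] B) x.ideal ∧ Module.Projective (R ⊗[k] B) x.ideal) :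
    Algebra.FormallySmooth k (HRing k e) := by
  refine Algebra.FormallySmooth.of_comp_surjective fun R _ _ I hI => ?_
  intro φ
  let x₀ := homEquiv k e (R ⧸ I) φ
  obtain ⟨h1, h2⟩ := h _ x₀
  have hker : RingHom.ker (Ideal.Quotient.mkₐ k I) ^ 2 = ⊥ := by
    rw [show RingHom.ker (Ideal.Quotient.mkₐ k I) = I from Ideal.mk_ker]
    exact hI
  obtain ⟨x, hx⟩ := Pt.exists_lift (Ideal.Quotient.mkₐ k I) Ideal.Quotient.mk_surjective hker x₀
  refine ⟨x.toHom, (homEquiv k e (R ⧸ I)).injective ?_⟩
  refine Eq.trans ?_ hx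
  ext b i
  show Ideal.Quotient.mkₐ k I (x.toHom ((univ k e).π b i)) = _
  rw [x.toHom_π]
  rfl

/-- Smoothness of the space of quotients. -/
theorem smooth_of_projective [Algebra.FiniteType k B]
    (h : ∀ (R : Type u) [CommRing R] [Algebra k R] (x : Pt k e R),
      Module.Finite (R ⊗[k] B) x.ideal ∧ Module.Projective (R ⊗[k] B) x.ideal) :
    Algebra.Smooth k (HRing k e) :=
  ⟨formallySmooth_of_projective h, finitePresentation⟩

end Fermat.Agent.Pic.Hilb

end
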