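import Fermat.Agent.Pic.Cech.Invertible
import Fermat.Agent.Pic.Hilb.IdealMap
import Fermat.Agent.Pic.Hilb.Smooth

/-!
# The ideals of finite quotients are invertible

On the universal quotient over the noetherian chart ring the ideal is locally principal at every
maximal ideal, generated by a nonzerodivisor; every other quotient is a base change of it.
-/

noncomputable section

open TensorProduct

namespace Fermat.Agent.Pic.Hilb

universe u

/-- A module with symmetric values and functionals generating the ring is invertible. -/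
theorem invertible_of_smul_comm {S M : Type u} [CommRing S] [AddCommGroup M] [Module S M]
    (hsymm : ∀ (χ : Module.Dual S M) (a b : M), χ a • b = χ b • a)
    (h1 : ∃ z, contractLeft S M z = 1) : Module.Invertible S M := by
  obtain ⟨z₀, hz₀⟩ := h1
  have hcomm : ∀ (χ ψ : Module.Dual S M) (n m : M),
      (χ n) • (ψ ⊗ₜ[S] m) = (ψ m) • (χ ⊗ₜ[S] n) := fun χ ψ n m => by
    have hψ : χ n • ψ = ψ n • χ := LinearMap.ext fun a => by
      have h := congrArg ψ (hsymm χ a n)
      rw [map_smul, map_smul, smul_eq_mul, smul_eq_mul] at h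
      show χ n * ψ a = ψ n * χ a
      linear_combination -h
    rw [TensorProduct.smul_tmul', hψ, TensorProduct.smul_tmul, hsymm ψ n m,
      TensorProduct.tmul_smul]
  have key : ∀ z w, contractLeft S M z • w = contractLeft S M w • z := by
    intro z w
    induction z using TensorProduct.induction_on with
    | zero => simp
    | tmul χ n =>
      induction w using TensorProduct.induction_on with
      | zero => simp
      | tmul ψ m => rw [contractLeft_apply, contractLeft_apply, hcomm]
      | add w w' hw hw' => rw [smul_add, map_add, add_smul, hw, hw']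
    | add z z' hz hz' => rw [smul_add, map_add, add_smul, hz, hz']
  refine ⟨(injective_iff_map_eq_zero _).mpr fun z hz => ?_, fun a => ⟨a • z₀, ?_⟩⟩
  · have := key z₀ z
    rwa [hz₀, one_smul, hz, zero_smul] at this
  · rw [map_smul, hz₀, smul_eq_mul, mul_one]

/-- An ideal that is locally generated by a nonzerodivisor is an invertible module. -/
theorem invertible_of_local {S : Type u} [CommRing S] (I : Ideal S)
    (h : ∀ M : Ideal S, M.IsMaximal → ∃ u f : S, u ∉ M ∧ f ∈ I ∧
      (∀ i ∈ I, u * i ∈ Ideal.span ({f} : Set S)) ∧ ∀ x, f * x = 0 → u * x = 0) :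
    Module.Invertible S I := by
  have hev : Function.Surjective (contractLeft S I) := by
    rw [← LinearMap.range_eq_top]
    by_contra hne
    obtain ⟨M, hM, hle⟩ := Ideal.exists_le_maximal _ hne
    obtain ⟨u, f, hu, hf, hgen, hann⟩ := h M hM
    choose c hc using fun i : I => Ideal.mem_span_singleton'.mp (hgen i.1 i.2)
    have key : ∀ x y : S, f * x = f * y → u * x = u * y := fun x y e => by
      have := hann (x - y) (by rw [mul_sub, e, sub_self])
      rwa [mul_sub, sub_eq_zero] at this
    let φ : Module.Dual S I :=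
      { toFun := fun i => u * c i
        map_add' := fun a b => by
          rw [← mul_add]
          refine key _ _ ?_
          rw [mul_add, mul_comm f, hc, mul_comm f (c a), hc, mul_comm f (c b), hc, ← mul_add]
          rfl
        map_smul' := fun s a => by
          rw [RingHom.id_apply, smul_eq_mul, mul_left_comm]
          refine key _ _ ?_
          rw [mul_left_comm f s, mul_comm f, hc, mul_comm f, hc, mul_left_comm]
          rfl }
    have hmem : φ ⟨f, hf⟩ ∈ M := hle ⟨φ ⊗ₜ ⟨f, hf⟩, contractLeft_apply φ _⟩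
    have hval : φ ⟨f, hf⟩ = u * u := key _ _ (by rw [mul_comm f, hc, mul_comm u f])
    rw [hval] at hmem
    exact hu ((hM.isPrime.mem_or_mem hmem).elim id id)
  refine invertible_of_smul_comm (fun φ a b => Subtype.ext ?_) (hev 1)
  show φ a * (b : S) = φ b * (a : S)
  have e : (b : S) • a = (a : S) • b := Subtype.ext (mul_comm _ _)
  have := congrArg φ e
  rw [map_smul, map_smul, smul_eq_mul, smul_eq_mul] at this
  linear_combination this

variable {k : Type u} [Field k] {B : Type u} [CommRing B] [Algebra k B]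
  {ι : Type u} [Fintype ι] [DecidableEq ι] {e : ι → B}
  {R R' : Type u} [CommRing R] [Algebra k R] [CommRing R'] [Algebra k R']

/-- Over a domain which is not a field the ideal of a quotient is nonzero. -/
theorem Pt.ne_bot [IsDomain B] (hB : ¬ IsField B) (x : Pt k e k) : x.ideal ≠ ⊥ := by
  intro h
  refine hB ?_
  have : Module.Finite k (k ⊗[k] B) := by
    refine Module.Finite.of_surjective (Pt.σ e k) fun t => ⟨x.πR t, ?_⟩
    have := x.sub_σ_mem_ideal t
    rw [h, Submodule.mem_bot, sub_eq_zero] at this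
    exact this.symm
  have : Module.Finite k B := Module.Finite.equiv (TensorProduct.lid k B)
  have : IsArtinianRing B := IsArtinianRing.of_finite k B
  exact IsArtinianRing.isField_of_isDomain B

/-- Locally a nonzero ideal of a Dedekind domain is generated by one element. -/
theorem exists_dedekind_generator {A : Type u} [CommRing A] [IsDedekindDomain A] {I : Ideal A}
    (hI : I ≠ ⊥) (M : Ideal A) [M.IsMaximal] :
    ∃ u f : A, u ∉ M ∧ f ∈ I ∧ f ≠ 0 ∧ ∀ i ∈ I, u * i ∈ Ideal.span ({f} : Set A) := by
  obtain ⟨a, ha, ha0⟩ := (Submodule.ne_bot_iff I).mp hI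
  obtain ⟨J, hJ⟩ := Ideal.dvd_iff_le.mpr ((Ideal.span_singleton_le_iff_mem I).mpr ha)
  have hmem : a ∈ I * J := hJ ▸ Ideal.mem_span_singleton_self a
  by_contra hcon
  push Not at hcon
  have hsub : ∀ x ∈ I * J, ∃ c ∈ M, x = a * c := by
    intro x hx
    induction hx using Submodule.mul_induction_on' with
    | mem_mul_mem i hi j hj =>
      obtain ⟨c, hc⟩ := Ideal.mem_span_singleton'.mp
        (hJ.symm ▸ Ideal.mul_mem_mul hi hj : i * j ∈ Ideal.span ({a} : Set A))
      refine ⟨c, ?_, by linear_combination -hc⟩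
      by_contra hcM
      rcases eq_or_ne i 0 with rfl | hi0
      · rw [zero_mul] at hc
        exact hcM ((mul_eq_zero.mp hc).resolve_right ha0 ▸ M.zero_mem)
      obtain ⟨l, hl, hlne⟩ := hcon c i hcM hi hi0
      apply hlne
      obtain ⟨d, hd⟩ := Ideal.mem_span_singleton'.mp
        (hJ.symm ▸ Ideal.mul_mem_mul hl hj : l * j ∈ Ideal.span ({a} : Set A))
      refine Ideal.mem_span_singleton'.mpr ⟨d, mul_left_cancel₀ ha0 ?_⟩
      linear_combination i * hd - l * hc
    | add x _ y _ hx hy =>
      obtain ⟨c, hc, rfl⟩ := hx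
      obtain ⟨d, hd, rfl⟩ := hy
      exact ⟨c + d, add_mem hc hd, (mul_add a c d).symm⟩
  obtain ⟨c, hc, hac⟩ := hsub a hmem
  have h1 : c = 1 := mul_left_cancel₀ ha0 (by rw [← hac, mul_one])
  exact ‹M.IsMaximal›.ne_top ((Ideal.eq_top_iff_one M).mpr (h1 ▸ hc))

section Point

variable (x : Pt k e R) (φ : R →ₐ[k] k)

/-- The fibre map to `B`. -/
def fibreMap : R ⊗[k] B →ₐ[k] B := (Algebra.TensorProduct.lid k B).toAlgHom.comp (scalarMap φ)

@[simp] theorem fibreMap_tmul (a : R) (b : B) : fibreMap φ (a ⊗ₜ[k] b) = φ a • b := rfl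

theorem fibreMap_surjective : Function.Surjective (fibreMap (B := B) φ) := fun b =>
  ⟨(1 : R) ⊗ₜ[k] b, by rw [fibreMap_tmul, map_one, one_smul]⟩

theorem mem_smul_of_fibreMap_eq_zero {t : R ⊗[k] B} (ht : fibreMap φ t = 0) :
    t ∈ RingHom.ker φ • (⊤ : Submodule R (R ⊗[k] B)) :=
  mem_smul_top_of_scalarMap_eq_zero φ (fun a => ⟨algebraMap k R a, φ.commutes a⟩)
    ((Algebra.TensorProduct.lid k B).injective (by rw [map_zero]; exact ht))

/-- Elements of the ideal killed on a fibre. -/
theorem Pt.mem_map_mul {t : R ⊗[k] B} (ht : t ∈ x.ideal) (h0 : fibreMap φ t = 0) :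
    t ∈ (RingHom.ker φ).map (algebraMap R (R ⊗[k] B)) * x.ideal := by
  have hh := mem_smul_of_fibreMap_eq_zero φ h0
  let ρ : R ⊗[k] B →ₗ[R] R ⊗[k] B := LinearMap.id - Pt.σ e R ∘ₗ x.πR
  have hρ : ρ t = t := by simp [ρ, x.mem_ideal.mp ht]
  rw [← hρ]
  clear hρ h0 ht
  refine Submodule.smul_induction_on hh (fun r hr s _ => ?_) fun a b ha hb => ?_
  · rw [map_smul, Algebra.smul_def]
    exact Ideal.mul_mem_mul (Ideal.mem_map_of_mem _ hr) (x.sub_σ_mem_ideal s)
  · rw [map_add]; exact add_mem ha hb

/-- A zero divisor against an element which is nonzero in the fibre at `φ` lies in every power of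
the kernel of `φ`. -/
theorem mem_pow_smul_top_of_mul_eq_zero [IsDomain B] {f : R ⊗[k] B} (hfb0 : fibreMap φ f ≠ 0)
    {z : R ⊗[k] B} (hz : f * z = 0) (n : ℕ) :
    z ∈ (RingHom.ker φ) ^ n • (⊤ : Submodule R (R ⊗[k] B)) := by
  induction n with
  | zero => rw [pow_zero, Ideal.one_eq_top, Submodule.top_smul]; exact Submodule.mem_top
  | succ n ih =>
    let J := RingHom.ker φ ^ (n + 1)
    let q : R ⊗[k] B →ₗ[k] (R ⧸ J) ⊗[k] B := (J.mkQ.restrictScalars k).rTensor B
    let L : (R ⧸ J) ⊗[k] B →ₗ[k] (R ⧸ J) ⊗[k] B :=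
      (LinearMap.mulLeft k (fibreMap φ f)).lTensor (R ⧸ J)
    have hqf : ∀ g, ∀ y ∈ (RingHom.ker φ) ^ n • (⊤ : Submodule R (R ⊗[k] B)),
        q (g * y) = (LinearMap.mulLeft k (fibreMap φ g)).lTensor (R ⧸ J) (q y) := by
      intro g y hy
      induction g using TensorProduct.induction_on with
      | zero => simp
      | tmul a b =>
        refine Submodule.smul_induction_on hy (fun r hr w _ => ?_) fun v w hv hw => ?_
        · induction w using TensorProduct.induction_on with
          | zero => simp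
          | tmul c d =>
            rw [smul_tmul', Algebra.TensorProduct.tmul_mul_tmul, fibreMap_tmul]
            show Submodule.Quotient.mk (a * (r * c)) ⊗ₜ[k] (b * d) =
              Submodule.Quotient.mk (r * c) ⊗ₜ[k] ((φ a • b) * d)
            rw [smul_mul_assoc, ← TensorProduct.smul_tmul, ← Submodule.Quotient.mk_smul]
            congr 1
            refine (Submodule.Quotient.eq _).mpr ?_
            rw [Algebra.smul_def, ← sub_mul, ← mul_assoc]
            refine Ideal.mul_mem_right _ _ ?_
            rw [show J = RingHom.ker φ * RingHom.ker φ ^ n from pow_succ' _ _]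
            exact Ideal.mul_mem_mul (by simp [RingHom.mem_ker]) hr
          | add v w hv hw => rw [smul_add, mul_add, map_add, hv Submodule.mem_top,
              hw Submodule.mem_top, map_add, map_add]
        · simp only [mul_add, map_add, hv, hw]
      | add v w hv hw =>
        rw [add_mul, map_add, hv, hw, map_add, ← LinearMap.add_apply, ← LinearMap.lTensor_add]
        congr 2
        ext d
        simp [add_mul]
    have hinj : Function.Injective L :=
      Module.Flat.lTensor_preserves_injective_linearMap _ (mul_right_injective₀ hfb0)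
    have hqz : q z = 0 := hinj (by
      rw [map_zero]
      show (LinearMap.mulLeft k (fibreMap φ f)).lTensor (R ⧸ J) (q z) = 0
      rw [← hqf f z ih, show f * z = 0 from hz, map_zero])
    obtain ⟨w, rfl⟩ := (rTensor_exact B
      (f := (J.subtype.restrictScalars k)) (g := (J.mkQ.restrictScalars k))
      (LinearMap.exact_subtype_mkQ J) (Submodule.mkQ_surjective J) z).mp hqz
    clear hqz hz ih
    induction w using TensorProduct.induction_on with
    | zero => rw [map_zero]; exact zero_mem _
    | tmul j b =>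
      rw [LinearMap.rTensor_tmul, show ((J.subtype.restrictScalars k) j) ⊗ₜ[k] b =
        (j : R) • ((1 : R) ⊗ₜ[k] b) by rw [smul_tmul', smul_eq_mul, mul_one]; rfl]
      exact Submodule.smul_mem_smul j.2 Submodule.mem_top
    | add v w hv hw => rw [map_add]; exact add_mem hv hw

/-- Near a prime above the point `φ`, the functions killed by an element which is nonzero in the
fibre at `φ` vanish. -/
theorem exists_smul_eq_zero_of_mul_eq_zero [IsDomain B] [IsNoetherianRing (R ⊗[k] B)]
    {f : R ⊗[k] B} (hf : fibreMap φ f ≠ 0) {M : Ideal (R ⊗[k] B)}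
    (hM : (RingHom.ker φ).map (algebraMap R (R ⊗[k] B)) ≤ M) :
    ∃ r, r - 1 ∈ M ∧ ∀ z, f * z = 0 → r * z = 0 := by
  let m : Ideal (R ⊗[k] B) := (RingHom.ker φ).map (algebraMap R (R ⊗[k] B))
  let K : Ideal (R ⊗[k] B) := LinearMap.ker (LinearMap.mulLeft (R ⊗[k] B) f)
  have hKle : K ≤ M • K := fun z hz => by
    have hmem : z ∈ (⨅ n : ℕ, m ^ n • ⊤ : Submodule (R ⊗[k] B) (R ⊗[k] B)) := by
      rw [Submodule.mem_iInf]
      intro n
      refine Submodule.smul_induction_on (mem_pow_smul_top_of_mul_eq_zero φ hf hz n)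
        (fun r hr w _ => ?_) fun a b ha hb => add_mem ha hb
      rw [Algebra.smul_def, ← smul_eq_mul]
      refine Submodule.smul_mem_smul ?_ Submodule.mem_top
      show algebraMap R _ r ∈ Ideal.map (algebraMap R (R ⊗[k] B)) (RingHom.ker φ) ^ n
      rw [← Ideal.map_pow]
      exact Ideal.mem_map_of_mem _ hr
    obtain ⟨c, hc⟩ := (m.mem_iInf_smul_pow_eq_bot_iff z).mp hmem
    rw [← hc]
    exact Submodule.smul_mem_smul (hM c.2) hz
  obtain ⟨r, hr, hr0⟩ := Submodule.exists_sub_one_mem_and_smul_eq_zero_of_fg_of_le_smul M K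
    (IsNoetherian.noetherian K) hKle
  exact ⟨r, hr, hr0⟩

/-- At a rational point the ideal is generated by a nonzerodivisor. -/
theorem Pt.exists_local_generator [IsDedekindDomain B] [IsNoetherianRing (R ⊗[k] B)]
    (hB : ¬ IsField B) (M : Ideal (R ⊗[k] B)) [M.IsMaximal] (ψ : R ⊗[k] B →ₐ[k] k)
    (hψ : RingHom.ker ψ = M) :
    ∃ u f : R ⊗[k] B, u ∉ M ∧ f ∈ x.ideal ∧
      (∀ i ∈ x.ideal, u * i ∈ Ideal.span ({f} : Set (R ⊗[k] B))) ∧
      ∀ z, f * z = 0 → u * z = 0 := by
  let φ : R →ₐ[k] k := ψ.comp Algebra.TensorProduct.includeLeft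
  let β : B →ₐ[k] k := ψ.comp Algebra.TensorProduct.includeRight
  have hψF : ∀ t, ψ t = β (fibreMap φ t) := fun t => by
    induction t using TensorProduct.induction_on with
    | zero => simp
    | tmul a b =>
      rw [fibreMap_tmul, map_smul, smul_eq_mul, show a ⊗ₜ[k] b =
        (a ⊗ₜ[k] (1 : B)) * ((1 : R) ⊗ₜ[k] b) by simp, map_mul]
      rfl
    | add u v hu hv => rw [map_add, map_add, hu, hv, map_add]
  have hβs : Function.Surjective β := fun a => ⟨algebraMap k B a, β.commutes a⟩
  have : (RingHom.ker β).IsMaximal := RingHom.ker_isMaximal_of_surjective β hβs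
  have hkerφ : RingHom.ker φ ≤ M.comap (algebraMap R (R ⊗[k] B)) := fun a ha => by
    rw [Ideal.mem_comap, ← hψ]
    exact ha
  let Ib : Ideal B := x.ideal.map (fibreMap φ)
  have hIb : Ib ≠ ⊥ := by
    have h := (x.map φ).ne_bot hB
    intro h0
    refine h ?_
    rw [Pt.ideal_map, Ideal.map_eq_bot_iff_le_ker]
    intro t ht
    have ht0 := (Ideal.map_eq_bot_iff_le_ker _).mp h0 ht
    rw [RingHom.mem_ker] at ht0 ⊢
    exact (Algebra.TensorProduct.lid k B).injective (ht0.trans (map_zero _).symm)
  obtain ⟨ub, fb, hub, hfb, hfb0, hgen⟩ := exists_dedekind_generator hIb (RingHom.ker β)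
  obtain ⟨f, hf, rfl⟩ :=
    (Ideal.mem_map_iff_of_surjective _ (fibreMap_surjective φ)).mp hfb
  obtain ⟨u₀, rfl⟩ := fibreMap_surjective φ ub
  have hu₀ : u₀ ∉ M := by
    rw [← hψ, RingHom.mem_ker, hψF]
    exact hub
  obtain ⟨s, hs⟩ : ∃ s, s * u₀ - 1 ∈ M := by
    obtain ⟨s, m, hm, e⟩ := Ideal.IsMaximal.exists_inv ‹M.IsMaximal› hu₀
    exact ⟨s, by rw [← e, sub_add_cancel_left]; exact neg_mem hm⟩
  let m : Ideal (R ⊗[k] B) := (RingHom.ker φ).map (algebraMap R (R ⊗[k] B))
  have hmM : m ≤ M := Ideal.map_le_iff_le_comap.mpr hkerφ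
  let fs : Ideal (R ⊗[k] B) := Ideal.span {f}
  have hred : ∀ i ∈ x.ideal, u₀ * i ∈ fs ⊔ m * x.ideal := fun i hi => by
    obtain ⟨c, hc⟩ := Ideal.mem_span_singleton'.mp (hgen _ (Ideal.mem_map_of_mem _ hi))
    obtain ⟨c, rfl⟩ := fibreMap_surjective φ c
    refine Submodule.mem_sup.mpr ⟨c * f, Ideal.mul_mem_left _ _ (Ideal.mem_span_singleton_self f),
      u₀ * i - c * f, x.mem_map_mul φ
        (sub_mem (Ideal.mul_mem_left _ _ hi) (Ideal.mul_mem_left _ _ hf))
        (by rw [map_sub, map_mul, map_mul, hc, sub_self]), by abel⟩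
  let N : Submodule (R ⊗[k] B) ((R ⊗[k] B) ⧸ fs) := Submodule.map fs.mkQ x.ideal
  have hNfg : N.FG := (IsNoetherian.noetherian x.ideal).map _
  have hN : N ≤ M • N := by
    rintro _ ⟨i, hi, rfl⟩
    have e : fs.mkQ i = s • fs.mkQ (u₀ * i) - (s * u₀ - 1) • fs.mkQ i := by
      rw [← map_smul, ← map_smul, ← map_sub]
      congr 1
      simp only [smul_eq_mul]
      ring
    rw [e]
    refine sub_mem ?_ (Submodule.smul_mem_smul hs ⟨i, hi, rfl⟩)
    refine Submodule.smul_mem _ _ ?_
    obtain ⟨a, ha, b, hb, hab⟩ := Submodule.mem_sup.mp (hred i hi)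
    rw [← hab, map_add, Submodule.mkQ_apply, (Submodule.Quotient.mk_eq_zero fs).mpr ha, zero_add]
    refine Submodule.mul_induction_on hb (fun p hp q hq => ?_) fun p q hp hq => ?_
    · rw [← smul_eq_mul, map_smul]
      exact Submodule.smul_mem_smul (hmM hp) ⟨q, hq, rfl⟩
    · rw [map_add]; exact add_mem hp hq
  obtain ⟨r, hr, hr0⟩ := Submodule.exists_sub_one_mem_and_smul_eq_zero_of_fg_of_le_smul M N hNfg hN
  obtain ⟨r', hr', hr'0⟩ := exists_smul_eq_zero_of_mul_eq_zero φ hfb0 hmM
  refine ⟨r * r', f, fun hmem => ?_, hf, fun i hi => ?_, fun z hz => ?_⟩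
  · have : (1 : R ⊗[k] B) ∈ M := by
      have e : (1 : R ⊗[k] B) = r * r' - (r - 1) * r' - (r' - 1) := by ring
      rw [e]
      exact sub_mem (sub_mem hmem (Ideal.mul_mem_right _ _ hr)) hr'
    exact ‹M.IsMaximal›.ne_top ((Ideal.eq_top_iff_one M).mpr this)
  · have h := hr0 _ (Submodule.mem_map_of_mem (f := fs.mkQ) hi)
    rw [← map_smul, Submodule.mkQ_apply, Submodule.Quotient.mk_eq_zero, smul_eq_mul] at h
    rw [mul_comm r, mul_assoc]
    exact Ideal.mul_mem_left _ _ h
  · rw [mul_assoc, hr'0 z hz, mul_zero]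

end Point

/-- The ideal of the universal quotient is invertible. -/
theorem invertible_univ [IsAlgClosed k] [IsDedekindDomain B] [Algebra.FiniteType k B]
    (hB : ¬ IsField B) :
    Module.Invertible (HRing k e ⊗[k] B) (univ k e).ideal := by
  have := finiteType (k := k) (e := e)
  have : Algebra.FiniteType k (HRing k e ⊗[k] B) :=
    Algebra.FiniteType.trans (S := HRing k e) this inferInstance
  have : IsNoetherianRing (HRing k e ⊗[k] B) := Algebra.FiniteType.isNoetherianRing k
      (HRing k e ⊗[k] B)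
  refine invertible_of_local (S := HRing k e ⊗[k] B) (univ k e).ideal fun M hM => ?_
  let := Ideal.Quotient.field M
  have : Module.Finite k ((HRing k e ⊗[k] B) ⧸ M) :=
    finite_of_finite_type_of_isJacobsonRing k ((HRing k e ⊗[k] B) ⧸ M)
  have : Algebra.IsIntegral k ((HRing k e ⊗[k] B) ⧸ M) :=
    Algebra.IsIntegral.of_finite k ((HRing k e ⊗[k] B) ⧸ M)
  have hb : Function.Bijective (algebraMap k ((HRing k e ⊗[k] B) ⧸ M)) :=
    IsAlgClosed.algebraMap_bijective_of_isIntegral
  let E : k ≃ₐ[k] ((HRing k e ⊗[k] B) ⧸ M) := AlgEquiv.ofBijective (Algebra.ofId k _) hb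
  refine (univ k e).exists_local_generator hB M (E.symm.toAlgHom.comp (Ideal.Quotient.mkₐ k M)) ?_
  ext t
  rw [RingHom.mem_ker, AlgHom.comp_apply]
  exact (map_eq_zero_iff _ E.symm.injective).trans Ideal.Quotient.eq_zero_iff_mem

section Transfer

variable [Algebra R R'] [IsScalarTower k R R'] (x : Pt k e R)

/-- An image of a quotient with invertible ideal has invertible ideal. -/
theorem Pt.invertible_ideal_map [Module.Invertible (R ⊗[k] B) x.ideal] :
    Module.Invertible (R' ⊗[k] B) (x.map (IsScalarTower.toAlgHom k R R')).ideal := by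
  let f := IsScalarTower.toAlgHom k R R'
  let := Cech.chartModule (k := k) (R := R) R' (B := B) x.ideal
  have := Cech.invertible_chart (k := k) (R := R) (R' := R') (B := B) x.ideal
  obtain ⟨E, hE⟩ := x.exists_idealEquiv R'
  have hEt : ∀ (a : R') (i : x.ideal),
      (E (a ⊗ₜ i)).1 = (a ⊗ₜ[k] (1 : B)) * scalarMap f i.1 := fun a i => by
    rw [← mul_one a, ← smul_eq_mul, ← smul_tmul', map_smul, Submodule.coe_smul_of_tower, hE,
      Algebra.smul_def, Algebra.TensorProduct.algebraMap_apply, Algebra.algebraMap_self,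
      RingHom.id_apply, smul_eq_mul, mul_one]
  refine Module.Invertible.congr (R := R' ⊗[k] B)
    { E.toEquiv with
      map_add' := E.map_add
      map_smul' := fun r z => Subtype.ext ?_ }
  show (E (Cech.chartAct R' x.ideal r z)).1 = r * (E z).1
  induction r using TensorProduct.induction_on with
  | zero => simp
  | tmul a b =>
    induction z using TensorProduct.induction_on with
    | zero => simp
    | tmul a' i =>
      rw [Cech.chartAct_tmul, hEt, hEt]
      show ((a * a') ⊗ₜ[k] (1 : B)) * scalarMap f (((1 : R) ⊗ₜ[k] b) * i.1) = _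
      rw [map_mul, Algebra.TensorProduct.map_tmul, map_one, ← mul_assoc, ← mul_assoc,
        Algebra.TensorProduct.tmul_mul_tmul, Algebra.TensorProduct.tmul_mul_tmul, one_mul,
        mul_one, mul_one]
      rfl
    | add u v hu hv => simp only [map_add, Submodule.coe_add, hu, hv, mul_add]
  | add u v hu hv => simp only [map_add, LinearMap.add_apply, Submodule.coe_add, hu, hv, add_mul]

end Transfer

/-- The ideal of every quotient is an invertible module. -/
theorem Pt.invertible_ideal [IsAlgClosed k] [IsDedekindDomain B] [Algebra.FiniteType k B]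
    (hB : ¬ IsField B) (x : Pt k e R) : Module.Invertible (R ⊗[k] B) x.ideal := by
  have := invertible_univ (k := k) (e := e) hB
  let : Algebra (HRing k e) R := x.toHom.toRingHom.toAlgebra
  have : IsScalarTower k (HRing k e) R := IsScalarTower.of_algHom x.toHom
  have h := (univ k e).invertible_ideal_map (R' := R)
  have hx : (univ k e).map (IsScalarTower.toAlgHom k (HRing k e) R) = x :=
    (homEquiv k e R).right_inv x
  rwa [hx] at h

end Fermat.Agent.Pic.Hilb

end
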