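import Mathlib

/-!
# Finite free quotients with a fixed basis

For a `k`-algebra `B` and a family `e` in `B`, a `Pt` over `R` is a quotient of `R ⊗ B` by an
ideal on which `e` is a basis.  These form the points of an affine scheme of finite type.
-/

noncomputable section

open TensorProduct

namespace Fermat.Agent.Pic.Hilb

universe u

variable {k : Type u} [Field k] {B : Type u} [CommRing B] [Algebra k B]
  {ι : Type u} [Fintype ι] [DecidableEq ι] {e : ι → B}

variable (k e) in
/-- A quotient on which `e` is a basis, through the coordinates of the elements of `B`. -/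
@[ext] structure Pt (R : Type u) [CommRing R] [Algebra k R] where
  /-- The coordinates in `e` of the image in the quotient of an element of `B`. -/
  π : B →ₗ[k] (ι → R)
  norm : ∀ i, π (e i) = Pi.single i 1
  mul : ∀ b c, π (b * c) = ∑ j, π c j • π (b * e j)

variable {R R' : Type u} [CommRing R] [Algebra k R] [CommRing R'] [Algebra k R']

/-- The image of a quotient under a ring map. -/
def Pt.map (f : R →ₐ[k] R') (x : Pt k e R) : Pt k e R' where
  π := f.toLinearMap.compLeft ι ∘ₗ x.π
  norm i := by
    funext l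
    show f (x.π (e i) l) = _
    rw [x.norm, Pi.single_apply, Pi.single_apply, apply_ite f, map_one, map_zero]
  mul b c := by
    funext l
    show f (x.π (b * c) l) = _
    rw [x.mul, Finset.sum_apply, map_sum, Finset.sum_apply]
    exact Finset.sum_congr rfl fun j _ => map_mul f _ _

@[simp] theorem Pt.map_π (f : R →ₐ[k] R') (x : Pt k e R) (b : B) (i : ι) :
    (x.map f).π b i = f (x.π b i) := rfl

section Ring

open MvPolynomial

variable (k e) in
/-- The equations of the quotients with basis `e`. -/
def rels : Set (MvPolynomial (B × ι) k) :=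
  {P | ∃ b c i, P = X (b + c, i) - X (b, i) - X (c, i)} ∪
  {P | ∃ (a : k) (b : B) (i : ι), P = X (a • b, i) - C a * X (b, i)} ∪
  {P | ∃ l i, P = X (e l, i) - (Pi.single l 1 : ι → MvPolynomial (B × ι) k) i} ∪
  {P | ∃ b c i, P = X (b * c, i) - ∑ j, X (c, j) * X (b * e j, i)}

variable (k e) in
/-- The ring of the quotients with basis `e`. -/
abbrev HRing := MvPolynomial (B × ι) k ⧸ Ideal.span (rels k e)

theorem mk_rel {P : MvPolynomial (B × ι) k} (h : P ∈ rels k e) :
    Ideal.Quotient.mk (Ideal.span (rels k e)) P = 0 :=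
  Ideal.Quotient.eq_zero_iff_mem.mpr (Ideal.subset_span h)

variable (k e) in
/-- The universal quotient. -/
def univ : Pt k e (HRing k e) where
  π :=
    { toFun := fun b i => Ideal.Quotient.mk _ (X (b, i))
      map_add' := fun b c => funext fun i => sub_eq_zero.mp <| by
        simp only [Pi.add_apply, ← map_add, ← map_sub]
        exact mk_rel (.inl (.inl (.inl ⟨b, c, i, sub_add_eq_sub_sub _ _ _⟩)))
      map_smul' := fun a b => funext fun i => sub_eq_zero.mp <| by
        simp only [Pi.smul_apply, RingHom.id_apply, Algebra.smul_def]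
        rw [IsScalarTower.algebraMap_apply k (MvPolynomial (B × ι) k) (HRing k e),
          Ideal.Quotient.algebraMap_eq, ← map_mul, ← map_sub]
        exact mk_rel (.inl (.inl (.inr ⟨a, b, i, by rw [Algebra.smul_def]; rfl⟩))) }
  norm l := funext fun i => sub_eq_zero.mp <| by
    show Ideal.Quotient.mk _ _ - _ = 0
    have h : (Pi.single l 1 : ι → HRing k e) i =
        Ideal.Quotient.mk _ ((Pi.single l 1 : ι → MvPolynomial (B × ι) k) i) := by
      rw [Pi.single_apply, Pi.single_apply, apply_ite (Ideal.Quotient.mk _), map_one, map_zero]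
    rw [h, ← map_sub]
    exact mk_rel (.inl (.inr ⟨l, i, rfl⟩))
  mul b c := funext fun i => sub_eq_zero.mp <| by
    simp only [Finset.sum_apply, Pi.smul_apply, smul_eq_mul, LinearMap.coe_mk, AddHom.coe_mk,
      ← map_mul, ← map_sum, ← map_sub]
    exact mk_rel (.inr ⟨b, c, i, rfl⟩)

theorem univ_π (b : B) (i : ι) : (univ k e).π b i = Ideal.Quotient.mk _ (X (b, i)) := rfl

/-- The map classifying a quotient. -/
def Pt.toHom (x : Pt k e R) : HRing k e →ₐ[k] R :=
  Ideal.Quotient.liftₐ _ (aeval fun q => x.π q.1 q.2) fun P hP => by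
    induction hP using Submodule.span_induction with
    | mem P hP =>
      rcases hP with ((⟨b, c, i, rfl⟩ | ⟨a, b, i, rfl⟩) | ⟨l, i, rfl⟩) | ⟨b, c, i, rfl⟩
      · simp [map_add]
      · rw [map_sub, map_mul, aeval_X, aeval_C, aeval_X, map_smul, Pi.smul_apply, Algebra.smul_def,
          sub_self]
      · rw [map_sub, aeval_X, Pi.single_apply, apply_ite (aeval _), map_one, map_zero, x.norm,
          Pi.single_apply, sub_self]
      · simp only [map_sub, map_sum, map_mul, aeval_X]
        rw [x.mul, Finset.sum_apply]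
        exact sub_self _
    | zero => exact map_zero _
    | add P Q _ _ hP hQ => rw [map_add, hP, hQ, add_zero]
    | smul a P _ hP => rw [smul_eq_mul, map_mul, hP, mul_zero]

theorem Pt.toHom_π (x : Pt k e R) (b : B) (i : ι) : x.toHom ((univ k e).π b i) = x.π b i := by
  rw [univ_π]
  show aeval (fun q => x.π q.1 q.2) (X (b, i)) = _
  rw [aeval_X]

variable (k e R) in
/-- The ring represents the quotients with basis `e`. -/
def homEquiv : (HRing k e →ₐ[k] R) ≃ Pt k e R where
  toFun f := (univ k e).map f
  invFun := Pt.toHom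
  left_inv f := Ideal.Quotient.algHom_ext _ <| MvPolynomial.algHom_ext fun q =>
    Pt.toHom_π ((univ k e).map f) q.1 q.2
  right_inv x := Pt.ext (LinearMap.ext fun b => funext fun i => x.toHom_π b i)

/-- The coordinates of the universal quotient generate. -/
theorem adjoin_univ_π :
    Algebra.adjoin k (Set.range fun q : B × ι => (univ k e).π q.1 q.2) = ⊤ := by
  rw [eq_top_iff]
  rintro P -
  obtain ⟨P, rfl⟩ := Ideal.Quotient.mk_surjective P
  induction P using MvPolynomial.induction_on with
  | C a => exact Subalgebra.algebraMap_mem _ a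
  | add P Q hP hQ => rw [map_add]; exact add_mem hP hQ
  | mul_X P q hP => rw [map_mul]; exact mul_mem hP (Algebra.subset_adjoin ⟨q, rfl⟩)

/-- The ring is of finite type. -/
theorem finiteType [Algebra.FiniteType k B] : Algebra.FiniteType k (HRing k e) := by
  classical
  obtain ⟨s, hs⟩ := Algebra.FiniteType.out (R := k) (A := B)
  let t : Finset (HRing k e) := Finset.univ.image (fun i => (univ k e).π 1 i) ∪
    (s ×ˢ (Finset.univ : Finset (ι × ι))).image fun q => (univ k e).π (q.1 * e q.2.1) q.2.2
  refine ⟨⟨t, eq_top_iff.mpr (adjoin_univ_π.ge.trans (Algebra.adjoin_le ?_))⟩⟩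
  rintro _ ⟨⟨b, i⟩, rfl⟩
  have key : ∀ c : B, (∀ i, (univ k e).π c i ∈ Algebra.adjoin k (t : Set (HRing k e))) →
      ∀ i, (univ k e).π (b * c) i ∈ Algebra.adjoin k (t : Set (HRing k e)) := by
    have hb : b ∈ Algebra.adjoin k (s : Set B) := hs ▸ Algebra.mem_top
    induction hb using Algebra.adjoin_induction with
    | mem x hx =>
      intro c hc i
      rw [(univ k e).mul, Finset.sum_apply]
      refine Subalgebra.sum_mem _ fun j _ => ?_
      rw [Pi.smul_apply, smul_eq_mul]
      refine mul_mem (hc j) (Algebra.subset_adjoin (Finset.mem_union_right _ ?_))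
      exact Finset.mem_image.mpr
        ⟨(x, j, i), Finset.mem_product.mpr ⟨hx, Finset.mem_univ _⟩, rfl⟩
    | algebraMap a =>
      intro c hc i
      rw [← Algebra.smul_def, map_smul, Pi.smul_apply]
      exact Subalgebra.smul_mem _ (hc i) a
    | add x y _ _ hx hy =>
      intro c hc i
      rw [add_mul, map_add, Pi.add_apply]
      exact add_mem (hx c hc i) (hy c hc i)
    | mul x y _ _ hx hy =>
      intro c hc i
      rw [mul_assoc]
      exact hx _ (hy c hc) i
  have h1 : ∀ i, (univ k e).π 1 i ∈ Algebra.adjoin k (t : Set (HRing k e)) := fun i =>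
    Algebra.subset_adjoin (Finset.mem_union_left _ (Finset.mem_image.mpr ⟨i,
      Finset.mem_univ _, rfl⟩))
  show (univ k e).π b i ∈ _
  rw [← mul_one b]
  exact key 1 h1 i

/-- The ring is of finite presentation. -/
theorem finitePresentation [Algebra.FiniteType k B] : Algebra.FinitePresentation k (HRing k e) :=
  Algebra.FinitePresentation.of_finiteType.mp finiteType

end Ring

namespace Pt

variable (x : Pt k e R)

/-- The coordinates over `R`. -/
def πR : R ⊗[k] B →ₗ[R] (ι → R) := x.π.liftBaseChange R

@[simp] theorem πR_tmul (a : R) (b : B) : x.πR (a ⊗ₜ b) = a • x.π b :=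
  x.π.liftBaseChange_tmul R a b

variable (R e) in
/-- The basis as a linear map. -/
def σ : (ι → R) →ₗ[R] R ⊗[k] B := Fintype.linearCombination R fun i => (1 : R) ⊗ₜ[k] e i

omit [DecidableEq ι] in
theorem σ_apply (v : ι → R) : σ e R v = ∑ i, v i ⊗ₜ[k] e i := by
  simp [σ, Fintype.linearCombination_apply, smul_tmul']

theorem πR_σ (v : ι → R) : x.πR (σ e R v) = v := by
  rw [σ_apply, map_sum]
  simp only [πR_tmul, x.norm]
  exact (pi_eq_sum_univ' v).symm

theorem πR_mul (s t : R ⊗[k] B) :
    x.πR (s * t) = ∑ j, x.πR t j • x.πR (s * ((1 : R) ⊗ₜ[k] e j)) := by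
  induction s using TensorProduct.induction_on with
  | zero => simp
  | tmul a b =>
    induction t using TensorProduct.induction_on with
    | zero => simp
    | tmul a' c =>
      simp only [Algebra.TensorProduct.tmul_mul_tmul, πR_tmul, x.mul b c, mul_one,
        Finset.smul_sum, Pi.smul_apply, smul_smul, smul_eq_mul]
      exact Finset.sum_congr rfl fun j _ => by ring_nf
    | add u v hu hv =>
      simp only [mul_add, map_add, hu, hv, Pi.add_apply, add_smul, Finset.sum_add_distrib]
  | add u v hu hv =>
    simp only [add_mul, map_add, hu, hv, smul_add, Finset.sum_add_distrib]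

/-- The ideal of a quotient. -/
def ideal : Ideal (R ⊗[k] B) where
  carrier := {t | x.πR t = 0}
  zero_mem' := map_zero _
  add_mem' := fun {a b} ha hb => by
    show x.πR (a + b) = 0
    rw [map_add, show x.πR a = 0 from ha, show x.πR b = 0 from hb, add_zero]
  smul_mem' := fun s t ht => by
    show x.πR (s * t) = 0
    rw [x.πR_mul, show x.πR t = 0 from ht]
    simp

theorem mem_ideal {t : R ⊗[k] B} : t ∈ x.ideal ↔ x.πR t = 0 := Iff.rfl

theorem sub_σ_mem_ideal (t : R ⊗[k] B) : t - σ e R (x.πR t) ∈ x.ideal := by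
  rw [mem_ideal, map_sub, x.πR_σ, sub_self]

theorem bijective_ideal :
    Function.Bijective ((Submodule.restrictScalars R x.ideal).mkQ ∘ₗ σ e R) := by
  refine ⟨(injective_iff_map_eq_zero _).mpr fun v hv => ?_, fun q => ?_⟩
  · rw [LinearMap.comp_apply, Submodule.mkQ_apply, Submodule.Quotient.mk_eq_zero] at hv
    have h : x.πR (σ e R v) = 0 := hv
    rwa [x.πR_σ] at h
  · obtain ⟨t, rfl⟩ := Submodule.mkQ_surjective _ q
    exact ⟨x.πR t, ((Submodule.Quotient.eq _).mpr (x.sub_σ_mem_ideal t)).symm⟩

/-- A quotient is determined by any ideal contained in its own. -/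
theorem eq_of_ideal_le {x y : Pt k e R} (h : x.ideal ≤ y.ideal) : x = y := by
  refine Pt.ext (LinearMap.ext fun b => ?_)
  have hb := h (x.sub_σ_mem_ideal ((1 : R) ⊗ₜ b))
  rw [mem_ideal, map_sub, y.πR_σ, sub_eq_zero, πR_tmul, πR_tmul, one_smul, one_smul] at hb
  exact hb.symm

end Pt

variable (e) in
/-- The quotient by an ideal on which `e` gives a basis. -/
def Pt.ofIdeal (I : Ideal (R ⊗[k] B))
    (h : Function.Bijective ((Submodule.restrictScalars R I).mkQ ∘ₗ Pt.σ e R)) : Pt k e R :=
  let E := LinearEquiv.ofBijective _ h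
  let P : R ⊗[k] B →ₗ[R] (ι → R) := E.symm.toLinearMap ∘ₗ (Submodule.restrictScalars R I).mkQ
  { π := P.restrictScalars k ∘ₗ (TensorProduct.mk k R B 1)
    norm := fun i => E.injective <| by
      show E (E.symm _) = E _
      rw [E.apply_symm_apply]
      show _ = (Submodule.restrictScalars R I).mkQ (Pt.σ e R (Pi.single i 1))
      rw [Pt.σ, Fintype.linearCombination_apply_single, one_smul]
      rfl
    mul := fun b c => E.injective <| by
      show E (E.symm _) = E (∑ j, P ((1 : R) ⊗ₜ[k] c) j • P ((1 : R) ⊗ₜ[k] (b * e j)))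
      rw [E.apply_symm_apply, map_sum]
      simp only [map_smul]
      show _ = ∑ j, P ((1 : R) ⊗ₜ[k] c) j • E (E.symm _)
      simp only [E.apply_symm_apply]
      set v := P ((1 : R) ⊗ₜ[k] c) with hv
      have hc : (1 : R) ⊗ₜ[k] c - Pt.σ e R v ∈ I := by
        refine (Submodule.Quotient.eq (Submodule.restrictScalars R I)).mp ?_
        exact (E.apply_symm_apply _).symm
      simp only [← map_smul, ← map_sum]
      refine (Submodule.Quotient.eq (Submodule.restrictScalars R I)).mpr ?_
      have key : (1 : R) ⊗ₜ[k] (b * c) - ∑ j, v j • ((1 : R) ⊗ₜ[k] (b * e j)) =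
          ((1 : R) ⊗ₜ[k] b) * ((1 : R) ⊗ₜ[k] c - Pt.σ e R v) := by
        rw [mul_sub, Algebra.TensorProduct.tmul_mul_tmul, one_mul, Pt.σ_apply, Finset.mul_sum]
        simp [smul_tmul']
      rw [Submodule.restrictScalars_mem, TensorProduct.mk_apply, key]
      exact I.mul_mem_left _ hc }

theorem Pt.ideal_ofIdeal (I : Ideal (R ⊗[k] B))
    (h : Function.Bijective ((Submodule.restrictScalars R I).mkQ ∘ₗ Pt.σ e R)) :
    (Pt.ofIdeal e I h).ideal = I := by
  let E := LinearEquiv.ofBijective _ h
  have hπ : ∀ t, (Pt.ofIdeal e I h).πR t = E.symm ((Submodule.restrictScalars R I).mkQ t) := by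
    intro t
    induction t using TensorProduct.induction_on with
    | zero => simp
    | tmul a b =>
      rw [Pt.πR_tmul, show a ⊗ₜ[k] b = a • ((1 : R) ⊗ₜ[k] b) by rw [smul_tmul', smul_eq_mul,
          mul_one],
        map_smul, map_smul]
      rfl
    | add u v hu hv => simp only [map_add, hu, hv]
  ext t
  rw [Pt.mem_ideal, hπ, LinearEquiv.map_eq_zero_iff, Submodule.mkQ_apply,
    Submodule.Quotient.mk_eq_zero]
  rfl

/-- The ring map on the ambient algebras. -/
abbrev scalarMap (f : R →ₐ[k] R') : R ⊗[k] B →ₐ[k] R' ⊗[k] B :=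
  Algebra.TensorProduct.map f (AlgHom.id k B)

omit [DecidableEq ι] in
theorem scalarMap_σ (f : R →ₐ[k] R') (v : ι → R) :
    scalarMap f (Pt.σ e R v) = Pt.σ e R' (f ∘ v) := by
  simp [Pt.σ_apply, scalarMap]

theorem Pt.πR_scalarMap (x : Pt k e R) (f : R →ₐ[k] R') (t : R ⊗[k] B) :
    (x.map f).πR (scalarMap f t) = f ∘ x.πR t := by
  induction t using TensorProduct.induction_on with
  | zero => funext i; simp
  | tmul a b => funext i; simp
  | add u v hu hv => funext i; simp [hu, hv]

theorem Pt.scalarMap_mem_ideal (x : Pt k e R) (f : R →ₐ[k] R') {t : R ⊗[k] B} (ht : t ∈ x.ideal) :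
    scalarMap f t ∈ (x.map f).ideal := by
  rw [Pt.mem_ideal, x.πR_scalarMap, x.mem_ideal.mp ht]
  funext i
  simp

/-- The ideal of an image is generated by the image of the ideal. -/
theorem Pt.ideal_map (x : Pt k e R) (f : R →ₐ[k] R') :
    (x.map f).ideal = x.ideal.map (scalarMap f) := by
  refine le_antisymm (fun t ht => ?_)
    (Ideal.map_le_iff_le_comap.mpr fun s hs => x.scalarMap_mem_ideal f hs)
  have key : ∀ s : R' ⊗[k] B, s - Pt.σ e R' ((x.map f).πR s) ∈ x.ideal.map (scalarMap f) := by
    intro s
    induction s using TensorProduct.induction_on with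
    | zero => simp
    | tmul a b =>
      have h := Ideal.mul_mem_left _ (a ⊗ₜ[k] (1 : B))
        (Ideal.mem_map_of_mem (scalarMap f) (x.sub_σ_mem_ideal ((1 : R) ⊗ₜ[k] b)))
      convert h using 1
      rw [map_sub, scalarMap_σ, mul_sub]
      congr 1
      · simp [scalarMap]
      · simp [Pt.σ_apply, Finset.mul_sum, Finset.smul_sum, smul_tmul']
    | add u v hu hv =>
      rw [map_add, map_add, add_sub_add_comm]
      exact add_mem hu hv
  simpa [(x.map f).mem_ideal.mp ht] using key t

end Fermat.Agent.Pic.Hilb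

end
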